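/- S25 block G, node C0: a smooth curve is covered by Dedekind charts. -/
import Fermat.Agent.S25.Geom.Defs
import Fermat.Agent.S25.Geom.SmoothAlg

set_option autoImplicit false

universe u

open CategoryTheory CategoryTheory.Limits AlgebraicGeometry TopologicalSpace

namespace Fermat.Agent.S25.Geom

variable {k : Type u} [Field k] {C : Scheme.{u}} (c : C ⟶ Spec (CommRingCat.of k))

/-- An open of the spectrum of a field containing a point is everything. -/
theorem charts_opens_eq_top (U : (Spec (CommRingCat.of k)).Opens)
    (y : Spec (CommRingCat.of k)) (hy : y ∈ U) : U = ⊤ := by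
  have : Subsingleton (Spec (CommRingCat.of k)) :=
    inferInstanceAs (Subsingleton (PrimeSpectrum k))
  ext z
  simp only [Opens.coe_top, Set.mem_univ, iff_true]
  rw [Subsingleton.elim z y]
  exact hy

/-- Node C0 (uses `isDedekindDomain_of_smooth`, `not_surjective_algebraMap_of_smooth`). -/
theorem dedekindCharts [IsAlgClosed k] [SmoothOfRelativeDimension 1 c] [IsIntegral C] :
    DedekindCharts c := by
  intro x
  obtain ⟨U, hU, V, hV, hx, e, hf⟩ :=
    SmoothOfRelativeDimension.exists_isStandardSmoothOfRelativeDimension (n := 1) (f := c) x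
  have hUtop : U = ⊤ := charts_opens_eq_top U (c x) (e hx)
  subst hUtop
  have hk : RingHom.IsStandardSmoothOfRelativeDimension 1 (kΓ c V) := by
    have h0 : RingHom.IsStandardSmoothOfRelativeDimension 0
        (Scheme.ΓSpecIso (CommRingCat.of k)).inv.hom :=
      RingHom.IsStandardSmoothOfRelativeDimension.equiv
        (Scheme.ΓSpecIso (CommRingCat.of k)).symm.commRingCatIsoToRingEquiv
    have := RingHom.IsStandardSmoothOfRelativeDimension.comp hf h0
    simpa [kΓ] using this
  have : Nonempty V := ⟨⟨x, hx⟩⟩
  let _ : Algebra k Γ(C, V) := (kΓ c V).toAlgebra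
  have hA : Algebra.IsStandardSmoothOfRelativeDimension 1 k Γ(C, V) := hk
  have hS : Algebra.IsStandardSmooth k Γ(C, V) :=
    Algebra.IsStandardSmoothOfRelativeDimension.isStandardSmooth 1
  refine ⟨V, hV, hx, isDedekindDomain_of_smooth k Γ(C, V), ?_,
    not_surjective_algebraMap_of_smooth k Γ(C, V)⟩
  have hft : Algebra.FiniteType k Γ(C, V) := inferInstance
  exact hft

end Fermat.Agent.S25.Geom
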