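/- S25 block G, node C2: nonempty opens of the curve are cofinite. -/
import Fermat.Agent.S25.Geom.Defs

set_option autoImplicit false

universe u

open CategoryTheory CategoryTheory.Limits AlgebraicGeometry TopologicalSpace

namespace Fermat.Agent.S25.Geom

/-- In a Dedekind domain only finitely many primes contain a given nonzero element. -/
theorem cofinite_finite_primes {B : Type*} [CommRing B] [IsDedekindDomain B] {s : B}
    (hs : s ≠ 0) : {P : PrimeSpectrum B | s ∈ P.asIdeal}.Finite := by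
  have hfin := Ideal.finite_minimalPrimes_of_isNoetherianRing B (Ideal.span {s})
  refine Set.Finite.of_finite_image (f := PrimeSpectrum.asIdeal) (hfin.subset ?_) ?_
  · rintro _ ⟨P, hP, rfl⟩
    have hsP : Ideal.span {s} ≤ P.asIdeal := (Ideal.span_singleton_le_iff_mem _).2 hP
    refine ⟨⟨P.isPrime, hsP⟩, ?_⟩
    rintro Q ⟨hQ, hsQ⟩ hQP
    have hQ0 : Q ≠ ⊥ := by
      rintro rfl
      exact hs (by simpa using hsQ (Ideal.mem_span_singleton_self s))
    have hQmax : Q.IsMaximal := hQ.isMaximal hQ0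
    exact (hQmax.eq_of_le P.isPrime.ne_top hQP).ge
  · intro P _ Q _ h
    exact PrimeSpectrum.ext h

variable {k : Type u} [Field k] {C : Scheme.{u}} (c : C ⟶ Spec (CommRingCat.of k))

variable [IsIntegral C]

omit [IsIntegral C] in
/-- the points of an affine open outside a basic open set -/
theorem cofinite_chart_subset {V : C.Opens} (hV : IsAffineOpen V) (s : Γ(C, V)) :
    ((V : Set C) \ (C.basicOpen s : Set C)) ⊆
      hV.fromSpec '' {P : PrimeSpectrum Γ(C, V) | s ∈ P.asIdeal} := by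
  rintro x ⟨hxV, hxs⟩
  refine ⟨hV.primeIdealOf ⟨x, hxV⟩, ?_, hV.fromSpec_primeIdealOf ⟨x, hxV⟩⟩
  by_contra hP
  apply hxs
  have h1 : hV.primeIdealOf ⟨x, hxV⟩ ∈ PrimeSpectrum.basicOpen s := hP
  rw [← hV.fromSpec_preimage_basicOpen] at h1
  have h2 : hV.fromSpec (hV.primeIdealOf ⟨x, hxV⟩) ∈ C.basicOpen s := h1
  rwa [hV.fromSpec_primeIdealOf ⟨x, hxV⟩] at h2

/-- one chart -/
theorem cofinite_chart {V : C.Opens} (hV : IsAffineOpen V) (hne : (V : Set C).Nonempty)
    (hD : IsDedekindDomain Γ(C, V)) (U : C.Opens) (hU : U ≠ ⊥) :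
    ((V : Set C) \ (U : Set C)).Finite := by
  have hηU : genericPoint C ∈ U := by
    refine ((genericPoint_spec C).mem_open_set_iff U.isOpen).2 ?_
    obtain ⟨x, hx⟩ := (Opens.nonempty_coe.2 (Opens.ne_bot_iff_nonempty U |>.1 hU))
    exact ⟨x, trivial, hx⟩
  have hηV : genericPoint C ∈ V := by
    refine ((genericPoint_spec C).mem_open_set_iff V.isOpen).2 ?_
    obtain ⟨x, hx⟩ := hne
    exact ⟨x, trivial, hx⟩
  obtain ⟨s, hsU, hηs⟩ := hV.exists_basicOpen_le (V := U) ⟨genericPoint C, hηU⟩ hηV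
  have hs : s ≠ 0 := by
    rintro rfl
    rw [Scheme.basicOpen_zero] at hηs
    exact hηs
  refine (((cofinite_finite_primes hs).image hV.fromSpec).subset
    (cofinite_chart_subset hV s)).subset ?_
  rintro x ⟨hxV, hxU⟩
  exact ⟨hxV, fun h => hxU (hsU h)⟩

variable {c}

/-- Node C2. -/
theorem DedekindCharts.cofinite [CompactSpace C] (H : DedekindCharts c) (U : C.Opens)
    (hU : U ≠ ⊥) : ((U : Set C)ᶜ).Finite := by
  choose V hVaff hxV hVD _ _ using H
  obtain ⟨t, ht⟩ := CompactSpace.elim_nhds_subcover (fun x => (V x : Set C))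
    (fun x => (V x).isOpen.mem_nhds (hxV x))
  have hsub : (U : Set C)ᶜ ⊆ ⋃ x ∈ t, ((V x : Set C) \ (U : Set C)) := by
    intro y hy
    have hy' : y ∈ ⋃ x ∈ t, (V x : Set C) := by rw [ht]; trivial
    simp only [Set.mem_iUnion] at hy' ⊢
    obtain ⟨x, hxt, hyx⟩ := hy'
    exact ⟨x, hxt, hyx, hy⟩
  refine Set.Finite.subset (Set.Finite.biUnion t.finite_toSet fun x _ => ?_) hsub
  exact cofinite_chart (hVaff x) ⟨x, hxV x⟩ (hVD x) U hU

end Fermat.Agent.S25.Geom
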