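/- S25 block G, node H: global functions on a proper integral scheme over an algebraically closed
field are constant. -/
import Fermat.Agent.S25.Geom.Defs

set_option autoImplicit false

universe u

open CategoryTheory CategoryTheory.Limits AlgebraicGeometry TopologicalSpace

namespace Fermat.Agent.S25.Geom

variable {k : Type u} [Field k] {C : Scheme.{u}} (c : C ⟶ Spec (CommRingCat.of k))

variable [IsIntegral C]

omit [IsIntegral C] in
theorem const_kΓ_top_isIntegral [UniversallyClosed c] : (kΓ c ⊤).IsIntegral := by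
  have h : ((Scheme.ΓSpecIso (CommRingCat.of k)).inv ≫ c.appTop).hom.IsIntegral := by
    apply RingHom.isIntegral_respectsIso.2
      (e := (Scheme.ΓSpecIso (CommRingCat.of k)).symm.commRingCatIsoToRingEquiv)
    exact isIntegral_appTop_of_universallyClosed c
  have h2 : kΓ c ⊤ = ((Scheme.ΓSpecIso (CommRingCat.of k)).inv ≫ c.appTop).hom := by
    unfold kΓ
    rw [CommRingCat.hom_comp]
    congr 2
    simp [Scheme.Hom.appLE]
  rw [h2]
  exact h

/-- Node H. -/
theorem const_of_isProper [IsAlgClosed k] [IsProper c] (s : Γ(C, ⊤)) : ∃ a : k, s = kΓ c ⊤ a := by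
  have h := const_kΓ_top_isIntegral c
  let _ : Algebra k Γ(C, ⊤) := (kΓ c ⊤).toAlgebra
  have : Algebra.IsIntegral k Γ(C, ⊤) := ⟨h⟩
  obtain ⟨a, ha⟩ := IsAlgClosed.algebraMap_bijective_of_isIntegral (k := k) (K := Γ(C, ⊤)) |>.2 s
  exact ⟨a, ha.symm⟩

end Fermat.Agent.S25.Geom
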