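/- S25 block G, node C3: the non-generic points of the curve are `k`-rational. -/
import Fermat.Agent.S25.Geom.Defs

set_option autoImplicit false

universe u

open CategoryTheory CategoryTheory.Limits AlgebraicGeometry TopologicalSpace

namespace Fermat.Agent.S25.Geom

variable {k : Type u} [Field k] {C : Scheme.{u}} (c : C ⟶ Spec (CommRingCat.of k))

/-- Pure algebra: a maximal ideal of a finite type algebra over an algebraically closed field has
residue field `k`. -/
theorem resField_exists_sub_mem {k B : Type*} [Field k] [IsAlgClosed k] [CommRing B]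
    (φ : k →+* B) (hφ : φ.FiniteType) (P : Ideal B) [P.IsMaximal] (b : B) :
    ∃ β : k, b - φ β ∈ P := by
  let _ := φ.toAlgebra
  have hft : Algebra.FiniteType k B := hφ
  let _ : Field (B ⧸ P) := Ideal.Quotient.field P
  have h1 : Algebra.FiniteType k (B ⧸ P) :=
    Algebra.FiniteType.of_surjective (Ideal.Quotient.mkₐ k P) Ideal.Quotient.mk_surjective
  have h2 : Module.Finite k (B ⧸ P) := finite_of_finite_type_of_isJacobsonRing k (B ⧸ P)
  have h3 : Algebra.IsIntegral k (B ⧸ P) := Algebra.IsIntegral.of_finite k (B ⧸ P)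
  obtain ⟨β, hβ⟩ := (IsAlgClosed.algebraMap_bijective_of_isIntegral (k := k) (K := B ⧸ P)).2
    (Ideal.Quotient.mk P b)
  refine ⟨β, ?_⟩
  rw [← Ideal.Quotient.eq]
  exact hβ.symm

variable [IsIntegral C]
variable {c}

omit [IsIntegral C] in
theorem resField_germ_kΓ (U : C.Opens) (x : C) (hx : x ∈ U) (a : k) :
    C.presheaf.germ U x hx (kΓ c U a) = kStalk c x a := by
  rw [← res_kΓ c (le_top : U ≤ ⊤) a]
  exact TopCat.Presheaf.germ_res_apply C.presheaf (homOfLE le_top) x hx (kΓ c ⊤ a)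

/-- Node C3. -/
theorem DedekindCharts.resField [IsAlgClosed k] (H : DedekindCharts c) (x : C)
    (hx : x ≠ genericPoint C) (t : C.presheaf.stalk x) :
    ∃ a : k, t - kStalk c x a ∈ IsLocalRing.maximalIdeal (C.presheaf.stalk x) := by
  obtain ⟨U, hU, hxU, hD, hft, -⟩ := H x
  have hne : Nonempty U := ⟨⟨x, hxU⟩⟩
  set P := (hU.primeIdealOf ⟨x, hxU⟩).asIdeal with hP
  have hPbot : P ≠ ⊥ := by
    intro h
    apply hx
    have h1 : hU.primeIdealOf ⟨x, hxU⟩ = genericPoint (Spec Γ(C, U)) := by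
      rw [genericPoint_eq_bot_of_affine]
      exact PrimeSpectrum.ext h
    rw [← hU.primeIdealOf_genericPoint] at h1
    have h2 := congrArg hU.fromSpec h1
    rw [hU.fromSpec_primeIdealOf, hU.fromSpec_primeIdealOf] at h2
    exact h2
  have hPmax : P.IsMaximal := (hU.primeIdealOf ⟨x, hxU⟩).isPrime.isMaximal hPbot
  let _ : Algebra Γ(C, U) (C.presheaf.stalk x) :=
    TopCat.Presheaf.algebra_section_stalk C.presheaf ⟨x, hxU⟩
  have hloc : IsLocalization.AtPrime (C.presheaf.stalk x) P := hU.isLocalization_stalk ⟨x, hxU⟩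
  obtain ⟨b, s, rfl⟩ := IsLocalization.exists_mk'_eq P.primeCompl t
  obtain ⟨β, hβ⟩ := resField_exists_sub_mem (kΓ c U) hft P b
  obtain ⟨σ, hσ⟩ := resField_exists_sub_mem (kΓ c U) hft P (s : Γ(C, U))
  have hσ0 : σ ≠ 0 := by
    rintro rfl
    rw [map_zero, sub_zero] at hσ
    exact s.2 hσ
  refine ⟨β / σ, ?_⟩
  have halg : ∀ z : Γ(C, U), algebraMap Γ(C, U) (C.presheaf.stalk x) z =
      C.presheaf.germ U x hxU z := fun _ => rfl
  have hmem : b - kΓ c U (β / σ) * (s : Γ(C, U)) ∈ P := by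
    have e : b - kΓ c U (β / σ) * (s : Γ(C, U)) =
        (b - kΓ c U β) - kΓ c U (β / σ) * ((s : Γ(C, U)) - kΓ c U σ) := by
      have : kΓ c U β = kΓ c U (β / σ) * kΓ c U σ := by
        rw [← map_mul, div_mul_cancel₀ _ hσ0]
      rw [this]; ring
    rw [e]
    exact P.sub_mem hβ (P.mul_mem_left _ hσ)
  have h1 : algebraMap Γ(C, U) (C.presheaf.stalk x) (b - kΓ c U (β / σ) * (s : Γ(C, U))) ∈
      IsLocalRing.maximalIdeal (C.presheaf.stalk x) :=
    (IsLocalization.AtPrime.to_map_mem_maximal_iff (C.presheaf.stalk x) P _).mpr hmem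
  have hu : IsUnit (algebraMap Γ(C, U) (C.presheaf.stalk x) (s : Γ(C, U))) :=
    IsLocalization.map_units (C.presheaf.stalk x) s
  have h2 : algebraMap Γ(C, U) (C.presheaf.stalk x) (b - kΓ c U (β / σ) * (s : Γ(C, U))) =
      algebraMap Γ(C, U) (C.presheaf.stalk x) (s : Γ(C, U)) *
        (IsLocalization.mk' (C.presheaf.stalk x) b s - kStalk c x (β / σ)) := by
    rw [mul_sub, mul_comm _ (IsLocalization.mk' _ b s), IsLocalization.mk'_spec, map_sub, map_mul,
      halg (kΓ c U (β / σ)), resField_germ_kΓ, mul_comm]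
  rw [h2] at h1
  exact (Ideal.unit_mul_mem_iff_mem _ hu).mp h1

end Fermat.Agent.S25.Geom
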