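/- S25 block G, nodes C1, C4.  Owner: helper159. -/
import Fermat.Agent.S25.Geom.Reg

set_option autoImplicit false

universe u

open CategoryTheory CategoryTheory.Limits AlgebraicGeometry TopologicalSpace

namespace Fermat.Agent.S25.Geom

variable {k : Type u} [Field k] {C : Scheme.{u}} (c : C ⟶ Spec (CommRingCat.of k))

variable [IsIntegral C]
variable {c}

/-- The localisation of a Dedekind domain at a prime is a valuation ring. -/
theorem val_valuationRing_of_atPrime (B : Type u) [CommRing B] [IsDedekindDomain B]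
    (P : Ideal B) [P.IsPrime] (S : Type u) [CommRing S] [IsDomain S] [Algebra B S]
    [IsLocalization.AtPrime S P] : ValuationRing S := by
  by_cases hP : P = ⊥
  · subst hP
    have h1 : IsFractionRing B S := by
      have := Ideal.primeCompl_bot (α := B)
      unfold IsFractionRing
      rw [← this]
      infer_instance
    have hF : IsField S := @Field.toIsField S (IsFractionRing.toField B)
    refine { toPreValuationRing := ⟨fun a b => ?_⟩ }
    by_cases ha : a = 0
    · exact ⟨0, Or.inr (by rw [ha, mul_zero])⟩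
    · obtain ⟨a', ha'⟩ := hF.mul_inv_cancel ha
      exact ⟨a' * b, Or.inl (by rw [← mul_assoc, ha', one_mul])⟩
  · have := IsLocalization.AtPrime.isDiscreteValuationRing_of_dedekind_domain B hP S
    infer_instance

/-- Node C1. -/
theorem DedekindCharts.val (H : DedekindCharts c) (x : C) (f : C.functionField) :
    RegAt f x ∨ RegAt f⁻¹ x := by
  obtain ⟨U, hU, hx, hD, -, -⟩ := H x
  let _ := C.presheaf.algebra_section_stalk ⟨x, hx⟩
  have hloc : IsLocalization.AtPrime (C.presheaf.stalk x) (hU.primeIdealOf ⟨x, hx⟩).asIdeal :=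
    hU.isLocalization_stalk ⟨x, hx⟩
  have hV : ValuationRing (C.presheaf.stalk x) :=
    val_valuationRing_of_atPrime Γ(C, U) (hU.primeIdealOf ⟨x, hx⟩).asIdeal (C.presheaf.stalk x)
  rcases ValuationRing.isInteger_or_isInteger (C.presheaf.stalk x) f with h | h
  · exact Or.inl h
  · exact Or.inr h

/-- Node C4. -/
theorem DedekindCharts.nonconst (H : DedekindCharts c) : ∃ f : C.functionField, NonConst c f := by
  obtain ⟨U, hU, hx, -, -, hns⟩ := H (genericPoint C)
  have : Nonempty U := ⟨⟨_, hx⟩⟩
  have : ∃ b : Γ(C, U), ∀ a, kΓ c U a ≠ b := by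
    by_contra hcon
    refine hns fun b => ?_
    by_contra hb
    exact hcon ⟨b, fun a ha => hb ⟨a, ha⟩⟩
  obtain ⟨b, hb⟩ := this
  refine ⟨toK U b, fun a ha => hb a ?_⟩
  have h1 : IsSec (toK U b) U b := isSec_iff_toK.2 rfl
  have h2 : IsSec (toK U b) U (kΓ c U a) := ha ▸ isSec_kΓ c a U
  exact h2.unique h1

end Fermat.Agent.S25.Geom
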